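import Fermat.Agent.S36.Mod3.H928.RegSkel
import Fermat.Agent.S36.Mod3.H27.RegMid4
import Fermat.Agent.S36.Mod3.H27.LeafQep
import Fermat.Agent.S36.Mod3.H356.RegU
import Fermat.Agent.S36.Mod3.H775.ResJ
import Fermat.Agent.S36.Mod3.H370.Val
import Fermat.Agent.S36.Mod3.H985.Sheet
import Fermat.Agent.S36.Mod3.H189.LeafChartOf

/-!
# S36 / MOD3 — REG, `q` odd: the leaf `LeafRegF4` (helper928, wiring only)

`leafRegF4 : LeafRegF4` = `H27.principalAt_mid_t4_conc` fed with (R-U) `H356.leafRegU_of`,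
(R-RES) `H775.Res.hresJ`, `Qep3` (`H27.leafQep_of_vt`), `chart ⊆ V_i` (SHEET + VAL).
-/

set_option autoImplicit false
set_option maxHeartbeats 1600000
set_option synthInstance.maxHeartbeats 400000

noncomputable section

namespace Fermat.Agent.S36.Mod3.H928

open Fermat.Agent.S18.H138 (chart)
open Fermat.Agent.S36.Eng Fermat.Agent.S36.Mod3

/-- **REG, `q` odd** (middle disjunct of `regular_f` everywhere on the middle component). -/
theorem leafRegF4 : LeafRegF4 := by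
  intro P E M q _ _ _ w hStd V₁' V₂' V₁ V₂ V₃ W' W hO h4 hq2 𝔪 h𝔪 hthr
  have hVT : LeafVT := Mod3.H370.leafVT
  have hTab : LeafTable := Mod3.H370.leafTable
  have hVal : LeafVal := Mod3.H370.leafVal
  have hQep : LeafQep := Mod3.H27.leafQep_of_vt hVT
  have hCh : LeafChart := Mod3.H189.leafChart_of hVT hTab hVal
  have hRU := Mod3.H356.leafRegU_of hTab hQep hCh hVal P E M q w hStd V₁' V₂' V₁ V₂ V₃ W' W hO
  have val := hVal P E M q w hStd V₁' V₂' V₁ V₂ V₃ W' W hO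
  have sh := Mod3.H985.leafSheet P E M q w hStd V₁' V₂' V₁ V₂ V₃ W' W hO
  have qep := hQep P E M q w hStd V₁' V₂' V₁ V₂ V₃ W' W hO
  have hB₁ := Mod3.H189.chart_le_valuationSubring (R := A2.RE P E) V₁ sh.base₁ val.x_unit₁.2.1
  have hB₂ := Mod3.H189.chart_le_valuationSubring (R := A2.RE P E) V₂ sh.base₂ val.x_unit₂.2.1
  have hB₃ := Mod3.H189.chart_le_valuationSubring (R := A2.RE P E) V₃ sh.base₃ val.x_unit₃.2.1
  obtain ⟨t, ht, -⟩ := val.ram₂
  exact Mod3.H27.principalAt_mid_t4_conc hStd hO h4 hq2 (fun b => hB₁ b b.2) (fun b => hB₂ b b.2)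
    (fun b => hB₃ b b.2) qep.qep_f ⟨t, ht⟩ (Mod3.H356.Um E M q) 12 hRU.exists_pair hRU.unit₁
    hRU.unit₃ hRU.val₂' (dvd_mul_left q M) (Mod3.H775.Res.hresJ hStd hO) 𝔪 h𝔪 hthr

end Fermat.Agent.S36.Mod3.H928

end
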