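import Fermat.Agent.S36.Mod3.H928.OfReg
import Fermat.Agent.S36.Mod3.H928.RegF4
import Fermat.Agent.S36.Mod3.H890.RegTwo
import Fermat.Agent.S36.Mod3.H276.RegI

/-!
# S36 / MOD3 — everything but `regular_i` for `q` odd (helper928, integrator)

* `leafReg_of_regIOdd : LeafRegIOdd → Mod3.LeafReg`, `LeafRegIOdd` = the field `regular_i` of
  `PartReg` for `q ≠ 2` (the cusps of the middle component).  Plugged in: `q = 2` completely
  (helper890 `leafReg2_of`, with (R-U) `H356`, (R-RES) `H775`), `regular_f` for `q` odd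
  (`H928.leafRegF4`).
* `model3_of_regIOdd : LeafRegIOdd → Eng.Model3Statement`;
* `model3_of_cuspCong : H276.LeafCuspCong → Eng.Model3Statement` (helper276's reduction of
  `regular_i` to ONE congruence).
-/

set_option autoImplicit false
set_option maxHeartbeats 1600000
set_option synthInstance.maxHeartbeats 400000

noncomputable section

namespace Fermat.Agent.S36.Mod3.H928

open Fermat.Agent.S18.H138 (chart)
open Fermat.Agent.S36.Eng Fermat.Agent.S36.Mod3

/-- The field `regular_i` of `PartReg` at the concrete objects, for `q` odd. -/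
def LeafRegIOdd : Prop :=
  Leaf fun P E M q _ _ _ _ _ _ _ V₂ _ => q ≠ 2 →
    ∀ 𝔪 : Ideal (chart (A2.RE P E) ({(x3E E M q)⁻¹} : Set (A2.Mod.FE E (M * q * q)))),
      𝔪.IsMaximal →
      (⟨(x3E E M q)⁻¹, Fermat.Agent.S18.H138.mem_chart_of_mem rfl⟩ :
        chart (A2.RE P E) ({(x3E E M q)⁻¹} : Set (A2.Mod.FE E (M * q * q)))) ∈ 𝔪 →
      Through _ 𝔪 V₂ → PrincipalAt _ 𝔪 V₂

/-- (R-RES) in helper890's leaf shape, from helper775's `hresJ`. -/
theorem leafResJ928 : Mod3.H890.LeafResJ :=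
  fun _ _ _ _ _ _ _ _ hStd _ _ _ _ _ _ _ hO => Mod3.H775.Res.hresJ hStd hO

/-- **REG** from `regular_i` for `q` odd. -/
theorem leafReg_of_regIOdd (hI : LeafRegIOdd) : LeafReg :=
  have hVT : LeafVT := Mod3.H370.leafVT
  have hTab : LeafTable := Mod3.H370.leafTable
  have hVal : LeafVal := Mod3.H370.leafVal
  have hSh : LeafSheet := Mod3.H985.leafSheet
  have hQep : LeafQep := Mod3.H27.leafQep_of_vt hVT
  have hNR : LeafNR := Mod3.H657.leafNR_of hVal hTab
  have hCh : LeafChart := Mod3.H189.leafChart_of hVT hTab hVal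
  have hInc : LeafInc := Mod3.H153.leafInc hTab hCh hQep hVal hSh hNR
  have hRU : Mod3.H356.LeafRegU := Mod3.H356.leafRegU_of hTab hQep hCh hVal
  Mod3.H890.leafReg_of_two_odd (Mod3.H890.leafReg2_of hSh hVal hQep hInc hRU leafResJ928)
    (fun P E M q _ _ _ w hStd V₁' V₂' V₁ V₂ V₃ W' W hO hq2 =>
      { regular_f := fun 𝔪 h𝔪 ht =>
          Or.inr (Or.inl (leafRegF4 P E M q w hStd V₁' V₂' V₁ V₂ V₃ W' W hO
            (hStd.neat.2.1 hq2) hq2 𝔪 h𝔪 ht))
        regular_i := hI P E M q w hStd V₁' V₂' V₁ V₂ V₃ W' W hO hq2 })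

/-- **MOD3 modulo `regular_i` for `q` odd.** -/
theorem model3_of_regIOdd (hI : LeafRegIOdd) : Model3Statement :=
  model3_of_reg (leafReg_of_regIOdd hI)

/-- **MOD3 modulo the cusp congruence** of helper276. -/
theorem model3_of_cuspCong (hC : Mod3.H276.LeafCuspCong) : Model3Statement :=
  have hVT : LeafVT := Mod3.H370.leafVT
  have hTab : LeafTable := Mod3.H370.leafTable
  have hVal : LeafVal := Mod3.H370.leafVal
  have hSh : LeafSheet := Mod3.H985.leafSheet
  have hQep : LeafQep := Mod3.H27.leafQep_of_vt hVT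
  have hNR : LeafNR := Mod3.H657.leafNR_of hVal hTab
  have hCh : LeafChart := Mod3.H189.leafChart_of hVT hTab hVal
  have hInc : LeafInc := Mod3.H153.leafInc hTab hCh hQep hVal hSh hNR
  model3_of_regIOdd (fun P E M q _ _ _ w hStd V₁' V₂' V₁ V₂ V₃ W' W hO _ =>
    Mod3.H276.leafRegI_of hVal hSh hQep hInc hVT hC P E M q w hStd V₁' V₂' V₁ V₂ V₃ W' W hO)

end Fermat.Agent.S36.Mod3.H928

end
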