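import Fermat.Agent.S36.Mod3.Skel
import Fermat.Agent.S36.Mod3.H439.Fin
import Fermat.Agent.S36.Mod3.H370.VT
import Fermat.Agent.S36.Mod3.H370.Val
import Fermat.Agent.S36.Mod3.H985.Sheet
import Fermat.Agent.S36.Mod3.H27.LeafQep
import Fermat.Agent.S36.Mod3.H756.Normal
import Fermat.Agent.S36.Mod3.H657.NormLeaf
import Fermat.Agent.S36.Mod3.H189.LeafChartOf
import Fermat.Agent.S36.Mod3.H153.Leaves

/-!
# S36 / MOD3 — everything but REG (helper928, integrator)

`model3_of_reg : Mod3.LeafReg → Eng.Model3Statement`: all leaves of `Mod3/Spec.lean` except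
`LeafReg` are proved on main and plugged in here:
`OBJ`, `VAL`, `TABLE`, `VT` (H370), `FF`, `FIN` (H439), `SHEET` (H985), `QEP` (H27),
`NORMAL` (H756), `NV`, `NR` (H657), `CHART` (H189), `INC`, `UNIQ` (H153).
-/

set_option autoImplicit false

namespace Fermat.Agent.S36.Mod3.H928

open Fermat.Agent.S36.Eng Fermat.Agent.S36.Mod3

/-- **MOD3 modulo REG.** -/
theorem model3_of_reg (hReg : LeafReg) : Model3Statement :=
  have hObj : LeafObj := Mod3.H370.leafObj
  have hVal : LeafVal := Mod3.H370.leafVal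
  have hVT : LeafVT := Mod3.H370.leafVT
  have hTab : LeafTable := Mod3.H370.leafTable
  have hSh : LeafSheet := Mod3.H985.leafSheet
  have hQep : LeafQep := Mod3.H27.leafQep_of_vt hVT
  have hNor : LeafNormal := Mod3.H756.leafNormal_of hVT hVal hSh hTab
  have hNV : LeafNV := Mod3.H657.leafNV_of hVal hTab
  have hNR : LeafNR := Mod3.H657.leafNR_of hVal hTab
  have hCh : LeafChart := Mod3.H189.leafChart_of hVT hTab hVal
  model3_of_leaves hObj Mod3.H439.leafFF hVal hSh hQep hNor
    (Mod3.H153.leafInc hTab hCh hQep hVal hSh hNR) hReg Mod3.H439.leafFin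
    hTab hNV hNR hCh (Mod3.H153.leafUniq hTab hCh hQep hVal hSh hNR)

end Fermat.Agent.S36.Mod3.H928
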