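import Fermat.Agent.S36.Mod3.Skel
import Fermat.Agent.S36.Mod3.H439.Fin
import Fermat.Agent.S36.Mod3.H816.Table
import Fermat.Agent.S36.Mod3.H985.Sheet
import Fermat.Agent.S36.Mod3.H657.NormLeaf
import Fermat.Agent.S36.Mod3.H189.ChartLeaf
import Fermat.Agent.S36.Mod3.H153.Leaves

/-!
# S36 / MOD3 — the integrator's running top (helper928)

`model3_of_open_v2`: `Eng.Model3Statement` from the leaves that are still OPEN.  Plugged in:
`FF`, `FIN` (H439), `TABLE` (H816), `SHEET` (H985), `NV`, `NR` (H657, from `VAL`, `TABLE`),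
`CHART` (H189, from the four `res` fields), `INC`, `UNIQ` (H153, formal corollaries).
-/

set_option autoImplicit false

namespace Fermat.Agent.S36.Mod3.H928

open Fermat.Agent.S36.Eng Fermat.Agent.S36.Mod3

/-- The running top: what is left to prove for `Eng.Model3Statement`. -/
theorem model3_of_open_v2 (hObj : LeafObj) (hVal : LeafVal) (hQep : LeafQep)
    (hNor : LeafNormal) (hRT : LeafRegT) (hRM : LeafRegM) (hRes : Mod3.H189.LeafRes) :
    Model3Statement :=
  have hTab : LeafTable := Mod3.H816.leafTable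
  have hSh : LeafSheet := Mod3.H985.leafSheet
  have hNV : LeafNV := Mod3.H657.leafNV_of hVal hTab
  have hNR : LeafNR := Mod3.H657.leafNR_of hVal hTab
  have hCh : LeafChart := Mod3.H189.leafChart_of_res hRes
  model3_of_leaves' hObj Mod3.H439.leafFF hVal hSh hQep hNor
    (Mod3.H153.leafInc hTab hCh hQep hVal hSh hNR) hRT hRM Mod3.H439.leafFin
    hTab hNV hNR hCh (Mod3.H153.leafUniq hTab hCh hQep hVal hSh hNR)

end Fermat.Agent.S36.Mod3.H928
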