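import Fermat.Agent.S36.Mod3.Spec

/-!
# S36 / MOD3 — the last leaf REG: final targets and glue (helper928, integrator)

`Mod3.LeafReg` is cut into the three end products of the REG swarm (LEAFREG PLAN v2, route R4:
the MIDDLE disjunct of `regular_f` at every closed point of the middle component):

* `LeafRegF4` : `4 ∣ M`, `q ≠ 2`  ⟹ `PrincipalAt (chart R {x}) 𝔪 V₂` for all maximal `𝔪` with
                `Through 𝔪 V₂`   (Hauptmodul `t₄`);
* `LeafRegF9` : `9 ∣ M`, `q = 2`  ⟹ the same   (Hauptmodul `t₉`);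
* `LeafRegI928` : the field `regular_i` VERBATIM (cusps of the middle component).

`leafReg_of_f4_f9_i : LeafRegF4 → LeafRegF9 → LeafRegI928 → Mod3.LeafReg`
(`Std.neat : NeatFor M q` gives `q ≠ 2 → 4 ∣ M` and `q = 2 → 9 ∣ M`).
-/

set_option autoImplicit false

noncomputable section

namespace Fermat.Agent.S36.Mod3.H928

open Fermat.Agent.S18.H138 (chart)
open Fermat.Agent.S36.Eng Fermat.Agent.S36.Mod3

/-- The middle disjunct of `regular_f` at every closed point of the middle component. -/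
def LeafRegF : Prop :=
  Leaf fun P E M q _ _ _ _ _ _ _ V₂ _ =>
    ∀ 𝔪 : Ideal (chart (A2.RE P E) ({x3E E M q} : Set (A2.Mod.FE E (M * q * q)))),
      𝔪.IsMaximal → Through _ 𝔪 V₂ → PrincipalAt _ 𝔪 V₂

/-- `LeafRegF` for `q` odd (`4 ∣ M`). -/
def LeafRegF4 : Prop :=
  Leaf fun P E M q _ _ _ _ _ _ _ V₂ _ => 4 ∣ M → q ≠ 2 →
    ∀ 𝔪 : Ideal (chart (A2.RE P E) ({x3E E M q} : Set (A2.Mod.FE E (M * q * q)))),
      𝔪.IsMaximal → Through _ 𝔪 V₂ → PrincipalAt _ 𝔪 V₂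

/-- `LeafRegF` for `q = 2` (`9 ∣ M`). -/
def LeafRegF9 : Prop :=
  Leaf fun P E M q _ _ _ _ _ _ _ V₂ _ => 9 ∣ M → q = 2 →
    ∀ 𝔪 : Ideal (chart (A2.RE P E) ({x3E E M q} : Set (A2.Mod.FE E (M * q * q)))),
      𝔪.IsMaximal → Through _ 𝔪 V₂ → PrincipalAt _ 𝔪 V₂

/-- The field `regular_i` of `PartReg` at the concrete objects, VERBATIM. -/
def LeafRegI928 : Prop :=
  Leaf fun P E M q _ _ _ _ _ _ _ V₂ _ =>
    ∀ 𝔪 : Ideal (chart (A2.RE P E) ({(x3E E M q)⁻¹} : Set (A2.Mod.FE E (M * q * q)))),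
      𝔪.IsMaximal →
      (⟨(x3E E M q)⁻¹, Fermat.Agent.S18.H138.mem_chart_of_mem rfl⟩ :
        chart (A2.RE P E) ({(x3E E M q)⁻¹} : Set (A2.Mod.FE E (M * q * q)))) ∈ 𝔪 →
      Through _ 𝔪 V₂ → PrincipalAt _ 𝔪 V₂

theorem leafRegF_of_f4_f9 (h4 : LeafRegF4) (h9 : LeafRegF9) : LeafRegF := by
  intro P E M q _ _ _ w hStd V₁' V₂' V₁ V₂ V₃ W' W hO
  by_cases hq : q = 2
  · exact h9 P E M q w hStd V₁' V₂' V₁ V₂ V₃ W' W hO (hStd.neat.2.2 hq) hq
  · exact h4 P E M q w hStd V₁' V₂' V₁ V₂ V₃ W' W hO (hStd.neat.2.1 hq) hq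

/-- **REG** from its middle disjunct and `regular_i`. -/
theorem leafReg_of_mid_i (hF : LeafRegF) (hI : LeafRegI928) : LeafReg := by
  intro P E M q _ _ _ w hStd V₁' V₂' V₁ V₂ V₃ W' W hO
  exact
    { regular_f := fun 𝔪 h𝔪 ht =>
        Or.inr (Or.inl (hF P E M q w hStd V₁' V₂' V₁ V₂ V₃ W' W hO 𝔪 h𝔪 ht))
      regular_i := hI P E M q w hStd V₁' V₂' V₁ V₂ V₃ W' W hO }

/-- **REG** from the three end products of the REG swarm. -/
theorem leafReg_of_f4_f9_i (h4 : LeafRegF4) (h9 : LeafRegF9) (hI : LeafRegI928) : LeafReg :=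
  leafReg_of_mid_i (leafRegF_of_f4_f9 h4 h9) hI

end Fermat.Agent.S36.Mod3.H928

end
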